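import Fermat.Agent.S15.H322.BaseKum

/-!
# Row S15 — DESC leaf STEP, sub-leaf TAU0 (helper315)

Requested by helper322 (note #8942): `p ≠ r` primes, `A` a valuation subring of `ℚ̄` over `p`,
`I_A` its inertia group (Prelude form `A.inertiaSubgroupIn ℚ`), `π ^ r = p`.

* `exists_inertia_ne_tau0`        : (a) `∃ τ ∈ I_A, τ π ≠ π`   (any `r ≥ 2`, `r = p` allowed);
* `eq_one_of_pow_eq_one_tau0`     : (b) `ξ ^ r = 1`, `ξ - 1 ∈ 𝔪_A`, `p ∤ r` ⟹ `ξ = 1`
                                    (`eq_one_of_valuation_sub_lt_tau0` is the valuation form);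
* `inertia_fixes_unit_root_tau0`  : `c ^ r = u ∈ ℚˣ`, `v_p(u) = 0`, `p ∤ r`, `τ ∈ I_A` ⟹ `τ c = c`;
* `dvd_padicValRat_of_fixed_tau0` : (c) `τ ∈ I_A`, `τ π ≠ π`, `b ^ r = a ∈ ℚˣ`, `τ b = b`
                                    ⟹ `(r : ℤ) ∣ padicValRat p a`;
* `zpow_inertia_ratio_tau0`       : the general formula `τ b / b = (τ π / π) ^ v_p(a)`;
* `complexConjugation_root_tau0`  : (d) `complexConjugation z = z⁻¹` for `z ^ r = 1`.

Everything is elementary from `S15.H322.BaseKum` (`dvd_padicValRat_of_fixed`,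
`valuation_ratCast_eq`) and `A2.IF.H429` (`sub_mem_nonunits_of_inertia`).
-/

set_option autoImplicit false

namespace Fermat.Agent.S15.H315

/-- `ℚ̄` (local abbreviation). -/
local notation "Qb" => AlgebraicClosure ℚ

/-- `Gal(ℚ̄/ℚ)` (local abbreviation). -/
local notation "GQ" => (AlgebraicClosure ℚ ≃ₐ[ℚ] AlgebraicClosure ℚ)

open Fermat.Agent.S15.H322

variable (A : ValuationSubring Qb) {p : ℕ}

/-! ## (a) an inertia element moving `p ^ (1 / r)` -/

/-- **TAU0 (a).**  Some element of the inertia group at a place over `p` moves a given `r`-th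
root of `p` (`r ≥ 2`). -/
theorem exists_inertia_ne_tau0 (hp : p.Prime) (hA : A.LiesOverPrime p) {r : ℕ} (hr : 2 ≤ r)
    {π : Qb} (hπ : π ^ r = (p : Qb)) : ∃ τ ∈ A.inertiaSubgroupIn ℚ, τ π ≠ π := by
  by_contra hcon
  simp only [not_exists, not_and, not_not] at hcon
  have hp0 : ((p : ℕ) : ℚ) ≠ 0 := Nat.cast_ne_zero.mpr hp.ne_zero
  have hπ' : π ^ r = (((p : ℕ) : ℚ) : Qb) := by rw [hπ]; push_cast; rfl
  have hdvd := dvd_padicValRat_of_fixed A hp hA hp0 hπ' hcon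
  have : Fact p.Prime := ⟨hp⟩
  rw [padicValRat.self hp.one_lt] at hdvd
  have h1 : (r : ℤ) ≤ 1 := Int.le_of_dvd one_pos hdvd
  omega

/-! ## (b) roots of unity of order prime to `p` are distinct modulo `𝔪_A` -/

/-- A root of unity has valuation `1`. -/
theorem valuation_eq_one_of_pow_eq_one_tau0 {r : ℕ} (hr : r ≠ 0) {ξ : Qb} (hξ : ξ ^ r = 1) :
    A.valuation ξ = 1 := by
  have h : A.valuation ξ ^ r = 1 := by rw [← map_pow, hξ, map_one]
  exact (pow_eq_one_iff_of_nonneg zero_le hr).mp h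

/-- **TAU0 (b), valuation form.**  `ξ ^ r = 1`, `v_A(ξ - 1) < 1`, `p ∤ r` ⟹ `ξ = 1`. -/
theorem eq_one_of_valuation_sub_lt_tau0 (hp : p.Prime) (hA : A.LiesOverPrime p) {r : ℕ}
    (hr : r ≠ 0) (hrp : ¬ p ∣ r) {ξ : Qb} (hξ : ξ ^ r = 1) (h : A.valuation (ξ - 1) < 1) :
    ξ = 1 := by
  by_contra hne
  have hξv : A.valuation ξ = 1 := valuation_eq_one_of_pow_eq_one_tau0 A hr hξ
  -- the geometric sum vanishes
  have hgeom : (∑ i ∈ Finset.range r, ξ ^ i) = 0 := by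
    have h1 : (∑ i ∈ Finset.range r, ξ ^ i) * (ξ - 1) = 0 := by
      rw [geom_sum_mul, hξ, sub_self]
    rcases mul_eq_zero.mp h1 with h2 | h2
    · exact h2
    · exact absurd (sub_eq_zero.mp h2) hne
  -- each `ξ ^ i - 1` has valuation `< 1`
  have hterm : ∀ i ∈ Finset.range r, A.valuation (ξ ^ i - 1) < 1 := by
    intro i _
    have h3 : ξ ^ i - 1 = (∑ j ∈ Finset.range i, ξ ^ j) * (ξ - 1) := (geom_sum_mul ξ i).symm
    rw [h3, map_mul]
    have h4 : A.valuation (∑ j ∈ Finset.range i, ξ ^ j) ≤ 1 := by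
      refine Valuation.map_sum_le _ fun j _ => ?_
      rw [map_pow, hξv, one_pow]
    calc A.valuation (∑ j ∈ Finset.range i, ξ ^ j) * A.valuation (ξ - 1)
        ≤ 1 * A.valuation (ξ - 1) := mul_le_mul_left h4 _
      _ = A.valuation (ξ - 1) := one_mul _
      _ < 1 := h
  have hsum : A.valuation (∑ i ∈ Finset.range r, (ξ ^ i - 1)) < 1 :=
    Valuation.map_sum_lt _ one_ne_zero hterm
  have hr' : (∑ i ∈ Finset.range r, (ξ ^ i - 1)) = -(r : Qb) := by
    rw [Finset.sum_sub_distrib, hgeom, Finset.sum_const, Finset.card_range, nsmul_eq_mul,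
      mul_one, zero_sub]
  rw [hr', Valuation.map_neg] at hsum
  have hc : Nat.Coprime r p := ((Nat.Prime.coprime_iff_not_dvd hp).mpr hrp).symm
  rw [Fermat.Agent.S56.H186.valuation_natCast_eq_one_of_coprime A hA hc] at hsum
  exact lt_irrefl _ hsum

/-- **TAU0 (b).**  `ξ ^ r = 1`, `ξ - 1 ∈ 𝔪_A`, `p ∤ r` ⟹ `ξ = 1`. -/
theorem eq_one_of_pow_eq_one_tau0 (hp : p.Prime) (hA : A.LiesOverPrime p) {r : ℕ}
    (hr : r ≠ 0) (hrp : ¬ p ∣ r) {ξ : Qb} (hξ : ξ ^ r = 1) (h : ξ - 1 ∈ A.nonunits) :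
    ξ = 1 :=
  eq_one_of_valuation_sub_lt_tau0 A hp hA hr hrp hξ (A.mem_nonunits_iff.mp h)

/-- Two `r`-th roots of the same element which are congruent modulo `𝔪_A`, one of them a unit
of `A`, are equal (`p ∤ r`). -/
theorem eq_of_pow_eq_of_sub_mem_tau0 (hp : p.Prime) (hA : A.LiesOverPrime p) {r : ℕ}
    (hr : r ≠ 0) (hrp : ¬ p ∣ r) {c c' : Qb} (hc : A.valuation c = 1) (hpow : c' ^ r = c ^ r)
    (h : c' - c ∈ A.nonunits) : c' = c := by
  have hc0 : c ≠ 0 := by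
    rintro rfl
    simp at hc
  have hξ : (c' / c) ^ r = 1 := by rw [div_pow, hpow, div_self (pow_ne_zero r hc0)]
  have hsub : A.valuation (c' / c - 1) < 1 := by
    have : c' / c - 1 = (c' - c) / c := by field_simp
    rw [this, map_div₀, hc, div_one]
    exact A.mem_nonunits_iff.mp h
  have := eq_one_of_valuation_sub_lt_tau0 A hp hA hr hrp hξ hsub
  exact (div_eq_one_iff_eq hc0).mp this

/-! ## (c) the Kummer dictionary at `p` for ONE inertia element -/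

/-- An `r`-th root of a rational `p`-adic unit is fixed by every inertia element at `p`
(`p ∤ r`). -/
theorem inertia_fixes_unit_root_tau0 (hp : p.Prime) (hA : A.LiesOverPrime p) {r : ℕ}
    (hr : r ≠ 0) (hrp : ¬ p ∣ r) {u : ℚ} (hu : u ≠ 0) (hu0 : padicValRat p u = 0) {c : Qb}
    (hc : c ^ r = (u : Qb)) {τ : GQ} (hτ : τ ∈ A.inertiaSubgroupIn ℚ) : τ c = c := by
  have hcv : A.valuation c = 1 := by
    have h : A.valuation c ^ r = 1 := by
      rw [← map_pow, hc, valuation_ratCast_eq A hp hA hu, hu0, zpow_zero]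
    exact (pow_eq_one_iff_of_nonneg zero_le hr).mp h
  have hcA : c ∈ A := (A.valuation_le_one_iff c).mp hcv.le
  refine eq_of_pow_eq_of_sub_mem_tau0 A hp hA hr hrp hcv ?_
    (Fermat.Agent.A2.IF.H429.sub_mem_nonunits_of_inertia A hτ hcA)
  rw [← map_pow, hc]
  exact map_ratCast τ u

/-- **General formula.**  `π ^ r = p`, `b ^ r = a ∈ ℚˣ`, `τ ∈ I_A`, `p ∤ r`:
`τ b / b = (τ π / π) ^ v_p(a)`. -/
theorem zpow_inertia_ratio_tau0 (hp : p.Prime) (hA : A.LiesOverPrime p) {r : ℕ}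
    (hr : r ≠ 0) (hrp : ¬ p ∣ r) {π : Qb} (hπ : π ^ r = (p : Qb)) {a : ℚ} (ha : a ≠ 0)
    {b : Qb} (hb : b ^ r = (a : Qb)) {τ : GQ} (hτ : τ ∈ A.inertiaSubgroupIn ℚ) :
    τ b / b = (τ π / π) ^ padicValRat p a := by
  have : Fact p.Prime := ⟨hp⟩
  have hpQ : ((p : ℕ) : ℚ) ≠ 0 := Nat.cast_ne_zero.mpr hp.ne_zero
  have hpQb : ((p : ℕ) : Qb) ≠ 0 := Nat.cast_ne_zero.mpr hp.ne_zero
  have hπ0 : π ≠ 0 := by
    rintro rfl
    rw [zero_pow hr] at hπ
    exact hpQb hπ.symm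
  have hb0 : b ≠ 0 := by
    rintro rfl
    rw [zero_pow hr] at hb
    exact ha (by exact_mod_cast hb.symm)
  set v : ℤ := padicValRat p a with hv
  -- the unit part
  set u : ℚ := a / (p : ℚ) ^ v with hu
  have hu0 : u ≠ 0 := div_ne_zero ha (zpow_ne_zero _ hpQ)
  have huv : padicValRat p u = 0 := by
    rw [hu, padicValRat.div ha (zpow_ne_zero _ hpQ), padicValRat.zpow,
      padicValRat.self hp.one_lt, mul_one, ← hv, sub_self]
  set c : Qb := b / π ^ v with hc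
  have hcr : c ^ r = (u : Qb) := by
    rw [hc, div_pow, hb, ← zpow_natCast (π ^ v) r, ← zpow_mul, mul_comm v (r : ℤ), zpow_mul,
      zpow_natCast, hπ, hu]
    push_cast
    rfl
  have hτc : τ c = c := inertia_fixes_unit_root_tau0 A hp hA hr hrp hu0 huv hcr hτ
  have hbc : b = c * π ^ v := by
    rw [hc, div_mul_cancel₀ _ (zpow_ne_zero _ hπ0)]
  have hτb : τ b = c * (τ π) ^ v := by
    conv_lhs => rw [hbc]
    rw [map_mul, hτc, map_zpow₀]
  have hc0 : c ≠ 0 := div_ne_zero hb0 (zpow_ne_zero _ hπ0)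
  rw [hτb, div_zpow]
  conv_lhs => rw [hbc]
  rw [mul_div_mul_left _ _ hc0]

/-- **TAU0 (c).**  `π ^ r = p`, `r` prime `≠ p`, `τ ∈ I_A` with `τ π ≠ π`; if `τ` fixes an
`r`-th root `b` of `a ∈ ℚˣ`, then `r ∣ v_p(a)`. -/
theorem dvd_padicValRat_of_fixed_tau0 (hp : p.Prime) (hA : A.LiesOverPrime p) {r : ℕ}
    (hr : r.Prime) (hrp : r ≠ p) {π : Qb} (hπ : π ^ r = (p : Qb)) {τ : GQ}
    (hτ : τ ∈ A.inertiaSubgroupIn ℚ) (hτπ : τ π ≠ π) {a : ℚ} (ha : a ≠ 0) {b : Qb}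
    (hb : b ^ r = (a : Qb)) (hτb : τ b = b) : (r : ℤ) ∣ padicValRat p a := by
  have hpr : ¬ p ∣ r := fun h => hrp ((Nat.prime_dvd_prime_iff_eq hp hr).mp h).symm
  have hpQb : ((p : ℕ) : Qb) ≠ 0 := Nat.cast_ne_zero.mpr hp.ne_zero
  have hπ0 : π ≠ 0 := by
    rintro rfl
    rw [zero_pow hr.ne_zero] at hπ
    exact hpQb hπ.symm
  have hb0 : b ≠ 0 := by
    rintro rfl
    rw [zero_pow hr.ne_zero] at hb
    exact ha (by exact_mod_cast hb.symm)
  have hratio := zpow_inertia_ratio_tau0 A hp hA hr.ne_zero hpr hπ ha hb hτ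
  rw [hτb, div_self hb0] at hratio
  -- `ξ = τ π / π` is an `r`-th root of unity `≠ 1`
  set ξ : Qb := τ π / π with hξ
  have hξr : ξ ^ r = 1 := by
    rw [hξ, div_pow, ← map_pow, hπ, map_natCast, div_self hpQb]
  have hξ1 : ξ ≠ 1 := fun h => hτπ ((div_eq_one_iff_eq hπ0).mp h)
  have hξ0 : ξ ≠ 0 := fun h => by rw [h, zero_pow hr.ne_zero] at hξr; exact zero_ne_one hξr
  -- pass to units
  set x : Qbˣ := Units.mk0 ξ hξ0 with hx
  have hxr : x ^ r = 1 := Units.ext (by simpa [hx] using hξr)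
  have hx1 : x ≠ 1 := fun h => hξ1 (by simpa [hx] using congrArg Units.val h)
  have hord : orderOf x = r := by
    have : Fact r.Prime := ⟨hr⟩
    exact orderOf_eq_prime hxr hx1
  have hxz : x ^ padicValRat p a = 1 := Units.ext (by simpa [hx] using hratio.symm)
  rw [← hord]
  exact orderOf_dvd_iff_zpow_eq_one.mpr hxz

/-- **TAU0 (c), contrapositive.**  If `r ∤ v_p(a)`, then an inertia element moving `π` moves
every `r`-th root of `a`. -/
theorem inertia_ne_of_not_dvd_tau0 (hp : p.Prime) (hA : A.LiesOverPrime p) {r : ℕ}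
    (hr : r.Prime) (hrp : r ≠ p) {π : Qb} (hπ : π ^ r = (p : Qb)) {τ : GQ}
    (hτ : τ ∈ A.inertiaSubgroupIn ℚ) (hτπ : τ π ≠ π) {a : ℚ} (ha : a ≠ 0) {b : Qb}
    (hb : b ^ r = (a : Qb)) (hva : ¬ (r : ℤ) ∣ padicValRat p a) : τ b ≠ b :=
  fun h => hva (dvd_padicValRat_of_fixed_tau0 A hp hA hr hrp hπ hτ hτπ ha hb h)

/-- **TAU0 (c), converse.**  If `r ∣ v_p(a)`, every inertia element at `p` fixes every `r`-th
root of `a` (`p ∤ r`). -/
theorem inertia_fixes_of_dvd_tau0 (hp : p.Prime) (hA : A.LiesOverPrime p) {r : ℕ}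
    (hr : r ≠ 0) (hrp : ¬ p ∣ r) {a : ℚ} (ha : a ≠ 0) {b : Qb} (hb : b ^ r = (a : Qb))
    (hva : (r : ℤ) ∣ padicValRat p a) {τ : GQ} (hτ : τ ∈ A.inertiaSubgroupIn ℚ) : τ b = b := by
  have : Fact p.Prime := ⟨hp⟩
  obtain ⟨k, hk⟩ := hva
  have hpQ : ((p : ℕ) : ℚ) ≠ 0 := Nat.cast_ne_zero.mpr hp.ne_zero
  have hpQb : ((p : ℕ) : Qb) ≠ 0 := Nat.cast_ne_zero.mpr hp.ne_zero
  have hb0 : b ≠ 0 := by
    rintro rfl
    rw [zero_pow hr] at hb
    exact ha (by exact_mod_cast hb.symm)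
  set u : ℚ := a / (p : ℚ) ^ (r * k : ℤ) with hu
  have hu0 : u ≠ 0 := div_ne_zero ha (zpow_ne_zero _ hpQ)
  have huv : padicValRat p u = 0 := by
    rw [hu, padicValRat.div ha (zpow_ne_zero _ hpQ), padicValRat.zpow,
      padicValRat.self hp.one_lt, mul_one, hk, sub_self]
  set c : Qb := b / (p : Qb) ^ k with hc
  have hcr : c ^ r = (u : Qb) := by
    rw [hc, div_pow, hb, ← zpow_natCast ((p : Qb) ^ k) r, ← zpow_mul, mul_comm k (r : ℤ), hu]
    push_cast
    rfl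
  have hτc : τ c = c := inertia_fixes_unit_root_tau0 A hp hA hr hrp hu0 huv hcr hτ
  have hbc : b = c * (p : Qb) ^ k := by
    rw [hc, div_mul_cancel₀ _ (zpow_ne_zero _ hpQb)]
  conv_lhs => rw [hbc]
  rw [map_mul, hτc, map_zpow₀, map_natCast, ← hbc]

/-! ## (d) complex conjugation on roots of unity -/

/-- **TAU0 (d).**  Complex conjugation inverts roots of unity. -/
theorem complexConjugation_root_tau0 {r : ℕ} (hr : r ≠ 0) {z : Qb} (hz : z ^ r = 1) :
    complexConjugation z = z⁻¹ := by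
  apply complexEmbedding.toRingHom.injective
  show complexEmbedding (complexConjugation z) = complexEmbedding z⁻¹
  rw [complexEmbedding_complexConjugation, map_inv₀]
  have h1 : (complexEmbedding z) ^ r = 1 := by rw [← map_pow, hz, map_one]
  have hnorm : ‖complexEmbedding z‖ = 1 := by
    have h2 : ‖complexEmbedding z‖ ^ r = 1 := by rw [← norm_pow, h1, norm_one]
    exact (pow_eq_one_iff_of_nonneg (norm_nonneg _) hr).mp h2
  have h0 : complexEmbedding z ≠ 0 := by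
    intro h
    rw [h, norm_zero] at hnorm
    exact zero_ne_one hnorm
  rw [Complex.inv_def, Complex.normSq_eq_norm_sq, hnorm]
  simp

end Fermat.Agent.S15.H315
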